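/-
S25lib / Sep / Cover  (helper5)  --  Project L (S25), (P-Sep), generic scheme theory.
`isSeparated_of_pairwise_cover`: `f : X ⟶ S`, open immersions `j i : V i ⟶ X` with every `j i ≫ f` separated and
such that every PAIR of points of `X` over the same point of `S` lies in a common `range (j i)`: then `f` is
separated.  (The opens `V i ×_S V i` cover `X ×_S X`, the diagonal of `X` restricts over them to the diagonals of
the `V i`, and closed immersions are local on the target.)
-/
import Mathlib

set_option autoImplicit false

noncomputable section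

namespace Fermat.Agent.S25lib.Sep

open AlgebraicGeometry CategoryTheory CategoryTheory.Limits

universe u

section Cat

variable {C : Type*} [Category C] [HasPullbacks C]

/-- for a monomorphism `j : V ⟶ X`, the diagonal of `j ≫ f` is the pull-back of the diagonal of `f` -/
theorem isPullback_diagonal_of_mono {V X S : C} (j : V ⟶ X) [Mono j] (f : X ⟶ S) :
    IsPullback j (pullback.diagonal (j ≫ f)) (pullback.diagonal f)
      (pullback.map (j ≫ f) (j ≫ f) f f j j (𝟙 S) (by simp) (by simp)) := by
  have hcomm : j ≫ pullback.diagonal f = pullback.diagonal (j ≫ f) ≫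
      pullback.map (j ≫ f) (j ≫ f) f f j j (𝟙 S) (by simp) (by simp) :=
    pullback.comp_diagonal j f
  refine ⟨⟨hcomm⟩, ⟨PullbackCone.IsLimit.mk _ (fun s => s.snd ≫ pullback.fst _ _) ?_ ?_ ?_⟩⟩
  · intro s
    have h1 := s.condition =≫ pullback.fst f f
    simp only [Category.assoc, pullback.diagonal_fst, Category.comp_id, pullback.lift_fst] at h1
    simp only [Category.assoc]
    exact h1.symm
  · intro s
    have h1 := s.condition =≫ pullback.fst f f
    have h2 := s.condition =≫ pullback.snd f f
    simp only [Category.assoc, pullback.diagonal_fst, pullback.diagonal_snd, Category.comp_id,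
      pullback.lift_fst, pullback.lift_snd] at h1 h2
    have h3 : s.snd ≫ pullback.fst (j ≫ f) (j ≫ f) = s.snd ≫ pullback.snd (j ≫ f) (j ≫ f) := by
      refine (cancel_mono j).1 ?_
      simp only [Category.assoc]
      exact h1.symm.trans h2
    apply pullback.hom_ext
    · simp
    · simp [h3]
  · intro s m _ hm
    have := hm =≫ pullback.fst (j ≫ f) (j ≫ f)
    simpa using this

end Cat

/-- **Separatedness from a cover by separated opens containing every pair of points.** -/
theorem isSeparated_of_pairwise_cover {X S : Scheme.{u}} (f : X ⟶ S) {ι : Type u}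
    (V : ι → Scheme.{u}) (j : ∀ i, V i ⟶ X) [∀ i, IsOpenImmersion (j i)]
    (hsep : ∀ i, IsSeparated (j i ≫ f))
    (hpair : ∀ x x' : X, f.base x = f.base x' →
      ∃ i, x ∈ Set.range (j i).base ∧ x' ∈ Set.range (j i).base) :
    IsSeparated f := by
  constructor
  -- the open cover of `X ×_S X` by the `V i ×_S V i`
  let m : ∀ i, pullback (j i ≫ f) (j i ≫ f) ⟶ pullback f f := fun i =>
    pullback.map (j i ≫ f) (j i ≫ f) f f (j i) (j i) (𝟙 S) (by simp) (by simp)
  have hcov : ∀ w : (pullback f f : Scheme.{u}), ∃ i, ∃ y, (m i) y = w := by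
    intro w
    have hw : f.base ((pullback.fst f f).base w) = f.base ((pullback.snd f f).base w) := by
      rw [← Scheme.Hom.comp_apply, ← Scheme.Hom.comp_apply, pullback.condition]
    obtain ⟨i, h1, h2⟩ := hpair _ _ hw
    refine ⟨i, ?_⟩
    have hr := Scheme.Pullback.range_map (j i ≫ f) (j i ≫ f) f f (j i) (j i) (𝟙 S)
      (by simp) (by simp)
    have hmem : w ∈ Set.range (m i) := by
      rw [hr]
      exact ⟨h1, h2⟩
    exact hmem
  let 𝒰 : (pullback f f : Scheme.{u}).OpenCover :=
    Scheme.Cover.mkOfCovers ι (fun i => pullback (j i ≫ f) (j i ≫ f)) m hcov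
  refine IsZariskiLocalAtTarget.of_openCover (P := @IsClosedImmersion) 𝒰 fun i => ?_
  -- over `V i ×_S V i` the diagonal of `X` is the diagonal of `V i`
  have hpb := isPullback_diagonal_of_mono (j i) f
  have h1 : pullback.diagonal (j i ≫ f) = hpb.isoPullback.hom ≫
      pullback.snd (pullback.diagonal f) (m i) := (hpb.isoPullback_hom_snd).symm
  have h2 : IsClosedImmersion (pullback.diagonal (j i ≫ f)) := (hsep i).isClosedImmersion_diagonal
  show IsClosedImmersion (pullback.snd (pullback.diagonal f) (m i))
  rw [h1] at h2
  exact (MorphismProperty.cancel_left_of_respectsIso @IsClosedImmersion _ _).1 h2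

end Fermat.Agent.S25lib.Sep
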