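/-
S25lib / Sep / Main  (helper5)  --  Project L (S25), (P-Sep).
`isSeparated_of_cover2`: if a chart cover has the TWO-POINT covering property `Cover2` (any two bundles of the cut
over a field belong to a common chart) and every chart is separated over `k`, then the representing scheme
`D.P` of `RepStatement` is separated over `k`.
-/
import Fermat.Agent.S25lib.Iface
import Fermat.Agent.S25lib.Sep.Cover

set_option autoImplicit false

noncomputable section

universe u

open AlgebraicGeometry CategoryTheory CategoryTheory.Limits AlgebraicGeometry.RelPicard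
  NeronModelInfra GoodReductionJacobian

namespace Fermat.Agent.S25lib.Sep

variable {k : Type u} [Field k] {C : Scheme.{u}} {c : C ⟶ Spec (CommRingCat.of k)}
  {ε : SchemeHomOver (𝟙 (Spec (CommRingCat.of k))) c}

/-- pseudo-functoriality of `pullbackAlong` (composition) -/
theorem pullbackAlong_comp_iso {X X' T' : Scheme.{u}} {x : X ⟶ Spec (CommRingCat.of k)}
    {x' : X' ⟶ Spec (CommRingCat.of k)} {t' : T' ⟶ Spec (CommRingCat.of k)}
    (M : RLB c ε x') (φ : SchemeHomOver x x') (ψ : SchemeHomOver t' x) :
    RLB.Iso ((M.pullbackAlong φ).pullbackAlong ψ) (M.pullbackAlong (postComp φ ψ)) :=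
  ⟨(Scheme.Modules.pullbackComp _ _).app M.L ≪≫
    (Scheme.Modules.pullbackCongr (baseChangeSnd_comp c φ ψ)).app M.L⟩

/-- two points of a `k`-scheme are the images of two `K`-points over the same `Spec K → Spec k`,
for a common field `K` -/
theorem exists_common_field {X : Scheme.{u}} (f : X ⟶ Spec (CommRingCat.of k)) (x x' : X) :
    ∃ (K : Type u) (_ : Field K) (t : Spec (CommRingCat.of K) ⟶ Spec (CommRingCat.of k))
      (h h' : SchemeHomOver t f), (∀ s, h.1.base s = x) ∧ (∀ s, h'.1.base s = x') := by
  let a : Spec (X.residueField x) ⟶ Spec (CommRingCat.of k) := X.fromSpecResidueField x ≫ f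
  let a' : Spec (X.residueField x') ⟶ Spec (CommRingCat.of k) := X.fromSpecResidueField x' ≫ f
  have hpt : a.base (IsLocalRing.closedPoint (X.residueField x)) =
      a'.base (IsLocalRing.closedPoint (X.residueField x')) := Subsingleton.elim _ _
  obtain ⟨w, -, -⟩ := Scheme.Pullback.exists_preimage_pullback (f := a) (g := a') _ _ hpt
  let P : Scheme.{u} := pullback a a'
  refine ⟨P.residueField w, inferInstance,
    P.fromSpecResidueField w ≫ pullback.fst a a' ≫ a,
    ⟨P.fromSpecResidueField w ≫ pullback.fst a a' ≫ X.fromSpecResidueField x, by simp [a]⟩,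
    ⟨P.fromSpecResidueField w ≫ pullback.snd a a' ≫ X.fromSpecResidueField x', ?_⟩, ?_, ?_⟩
  · simp only [Category.assoc]
    rw [pullback.condition]
  · intro s
    simp only [Scheme.Hom.comp_base, TopCat.comp_app]
    exact Scheme.fromSpecResidueField_apply x _
  · intro s
    simp only [Scheme.Hom.comp_base, TopCat.comp_app]
    exact Scheme.fromSpecResidueField_apply x' _

/-- **(P-Sep)**: the representing scheme is separated over `k`, from the two-point covering property and
separatedness of the charts. -/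
theorem isSeparated_of_cover2 (A : ChartCover c ε) (D : RelativePic0Designation k c)
    (h : RepresentsRelSubPic c ε (algEquivZeroCut c ε) D)
    (j : ∀ i, SchemeHomOver (A.chart i).v D.toBase) (hj : ∀ i, IsOpenImmersion (j i).1)
    (hiso : ∀ i, RLB.Iso (h.poincare.pullbackAlong (j i)) (A.chart i).univ)
    (hsep : ∀ i, IsSeparated (A.chart i).v) (h2 : A.Cover2) : IsSeparated D.toBase := by
  have := hj
  refine isSeparated_of_pairwise_cover D.toBase (fun i => (A.chart i).V) (fun i => (j i).1)
    (fun i => by rw [(j i).2]; exact hsep i) ?_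
  intro x x' _
  obtain ⟨K, _, t, h₁, h₂, hx, hx'⟩ := exists_common_field D.toBase x x'
  have hmem : ∀ g : SchemeHomOver t D.toBase, InP (h.poincare.pullbackAlong g) := fun g =>
    FibrewiseAlgEquivZero.pullback g h.poincare_mem
  obtain ⟨i, ⟨g, hg⟩, ⟨g', hg'⟩⟩ := h2 K t _ _ (hmem h₁) (hmem h₂)
  -- the classifying maps factor through the chart `i`
  have key : ∀ (h₀ : SchemeHomOver t D.toBase) (g₀ : SchemeHomOver t (A.chart i).v),
      RLB.Iso ((A.chart i).univ.pullbackAlong g₀) (h.poincare.pullbackAlong h₀) →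
      postComp (j i) g₀ = h₀ := by
    intro h₀ g₀ hg₀
    apply h.ext_of_iso
    obtain ⟨e1⟩ := pullbackAlong_comp_iso h.poincare (j i) g₀
    obtain ⟨e2⟩ := RigidifiedLineBundle.pullbackAlong_congr g₀ (hiso i)
    obtain ⟨e3⟩ := hg₀
    exact ⟨e1.symm ≪≫ e2 ≪≫ e3⟩
  have k1 := key h₁ g hg
  have k2 := key h₂ g' hg'
  have s0 : (Spec (CommRingCat.of K) : Scheme.{u}) := IsLocalRing.closedPoint K
  refine ⟨i, ⟨g.1.base s0, ?_⟩, ⟨g'.1.base s0, ?_⟩⟩
  · rw [← hx s0, ← k1]
    rfl
  · rw [← hx' s0, ← k2]
    rfl

end Fermat.Agent.S25lib.Sep
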